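import Fermat.Agent.H22.ES.KLModel
import Fermat.Prelude.Def_ModularCurve_HeckeOperator

/-!
# P-SS2 (E1) DEG3 / GEN3 (helper1): exact Props

Level `L` with `q ∣ L` (in the application `L = M' q`, `q ∤ M'`), `E₀ = ModelField K₁ (L q)`,
`α, β : ModelField K₁ L → E₀` the two degeneracy maps (`α` = inclusion, `β` = `t ↦ t ^ q`).

* `ModelDeg3Statement L q` : `[E₀ : α F_L] = q = [E₀ : β F_L]`;
* `ModelGen3BetaStatement L q h₀` : `E₀ = β(F_L)[α H₀]` for `H₀ ∈ F_L` with expansion `h₀`;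
* `ModelGen3AlphaStatement L q h₀` : `E₀ = α(F_L)[β H₁]` for `H₁ ∈ F_L` with expansion
  `h₀(t ^ q)`.
Twins of `Fermat.Agent.H65.qes_finrankAlong_heckeAlphaBar` / `Fermat.Agent.H45.ModelGenStatement`
(which treat `q ∤ M`, degree `q + 1`).
-/

set_option autoImplicit false
set_option linter.style.haveILetI false

noncomputable section

namespace Fermat.Agent.H1.SS2

open Polynomial ModularCurve AlgebraicCurve
open Fermat.Agent.H22.KL

/-- **(E1) DEG3.**  Both degeneracy maps from level `L` to level `L q` have degree `q`. -/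
def ModelDeg3Statement (L q : ℕ) [NeZero L] [NeZero q] : Prop :=
  ∀ (K₁ : Type) [Field K₁] [Algebra ℚ K₁] [FiniteDimensional ℚ K₁],
    (FiniteAlong K₁ (heckeAlphaBar K₁ L q) ∧ finrankAlong K₁ (heckeAlphaBar K₁ L q) = q) ∧
    (FiniteAlong K₁ (heckeBetaBar K₁ L q) ∧ finrankAlong K₁ (heckeBetaBar K₁ L q) = q)

/-- **(E1) GEN3, along `β`.**  `E₀ = β(F_L)[α H₀]`: every element of the model field of level
`L q` is a polynomial of degree `< q` in `α H₀` with coefficients in `β F_L`. -/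
def ModelGen3BetaStatement (L q : ℕ) [NeZero L] [NeZero q] (h₀ : LaurentSeries ℚ) : Prop :=
  ∀ (K₁ : Type) [Field K₁] [Algebra ℚ K₁] [FiniteDimensional ℚ K₁]
    (H₀ : ModelField K₁ L), (H₀ : LaurentSeries K₁) = coeffEmb K₁ h₀ →
    ∀ z : ModelField K₁ (L * q), ∃ p : (ModelField K₁ L)[X], p.natDegree < q ∧
      z = p.eval₂ (heckeBetaBar K₁ L q : ModelField K₁ L →+* ModelField K₁ (L * q))
        (heckeAlphaBar K₁ L q H₀)

/-- **(E1) GEN3, along `α`.**  `E₀ = α(F_L)[β H₁]`: every element of the model field of level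
`L q` is a polynomial of degree `< q` in `β H₁` with coefficients in `α F_L`, where `H₁` has the
expansion `h₀(t ^ q)`. -/
def ModelGen3AlphaStatement (L q : ℕ) [NeZero L] [NeZero q] (h₀ : LaurentSeries ℚ) : Prop :=
  ∀ (K₁ : Type) [Field K₁] [Algebra ℚ K₁] [FiniteDimensional ℚ K₁]
    (H₁ : ModelField K₁ L), (H₁ : LaurentSeries K₁) = coeffEmb K₁ (qExpand ℚ q h₀) →
    ∀ z : ModelField K₁ (L * q), ∃ p : (ModelField K₁ L)[X], p.natDegree < q ∧
      z = p.eval₂ (heckeAlphaBar K₁ L q : ModelField K₁ L →+* ModelField K₁ (L * q))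
        (heckeBetaBar K₁ L q H₁)

/-- The hypothesis on the expansion: some coefficient at an exponent prime to `q` is nonzero
(e.g. the coefficient of `t⁻¹` of a Hauptmodul). -/
def HasCoeffOff (q : ℕ) (h₀ : LaurentSeries ℚ) : Prop :=
  ∃ k : ℤ, ¬ (q : ℤ) ∣ k ∧ h₀.coeff k ≠ 0

/-- **(E1), target.**  For a prime `q ∤ M'` and `h₀` of level `M'` with a nonzero coefficient at
an exponent not divisible by `q`: DEG3 and GEN3 at `L = M' q`. -/
def ModelE1Statement (M' q : ℕ) [NeZero M'] [NeZero q] [NeZero (M' * q)] : Prop :=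
  q.Prime → Nat.Coprime M' q →
    ModelDeg3Statement (M' * q) q ∧
    (∀ h₀ : LaurentSeries ℚ, HasCoeffOff q h₀ → ModelGen3BetaStatement (M' * q) q h₀) ∧
    (∀ h₀ : LaurentSeries ℚ, h₀ ∈ modularFunctionFieldFull M' → HasCoeffOff q h₀ →
      ModelGen3AlphaStatement (M' * q) q h₀)

end Fermat.Agent.H1.SS2

end
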