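import Fermat.Agent.H44.KL.NormTrickDeg

/-!
# P-SS2 (E1) DEG3, part 1 (helper1): `[F_{N q}(ℚ̄) : α F_N(ℚ̄)] = q` for a prime `q ∣ N`

Twin of `Fermat.Agent.H44.klnt_finrankAlong_heckeAlphaBar` (`q ∤ N`, degree `q + 1`).
-/

set_option autoImplicit false
set_option linter.style.haveILetI false

noncomputable section

namespace Fermat.Agent.H1.SS2

open AlgebraicCurve ModularCurve IntermediateField
open scoped MatrixGroups

/-- `[F_{N q}(ℚ̄) : F_N(ℚ̄)] = q` for a prime `q ∣ N`. -/
theorem finrankAlong_heckeAlphaBar_of_dvd (N q : ℕ) [NeZero N] [NeZero q]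
    (hq : q.Prime) (hqN : q ∣ N) :
    finrankAlong (AlgebraicClosure ℚ) (heckeAlphaBar (AlgebraicClosure ℚ) N q) = q := by
  have h1 := Fermat.Agent.H17.ESD.finrank_eq_card N
  have h2 := Fermat.Agent.H17.ESD.finrank_eq_card (N * q)
  rw [Fermat.Agent.H65.finrank_adjoin_coe_eq_relfinrank] at h1 h2
  have hle : modularFunctionFieldBar N ≤ modularFunctionFieldBar (N * q) := by
    intro x hx
    exact (heckeAlphaBar (AlgebraicClosure ℚ) N q ⟨x, hx⟩).2
  have hα : heckeAlphaBar (AlgebraicClosure ℚ) N q = IntermediateField.inclusion hle := rfl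
  rw [hα, Fermat.Agent.H65.finrankAlong_inclusion_eq_relfinrank]
  have hJ : (AlgebraicClosure ℚ)⟮((Fermat.Agent.H23.jBar N :
      ↥(modularFunctionFieldBar N)) : LaurentSeries (AlgebraicClosure ℚ))⟯
        ≤ modularFunctionFieldBar N := by
    rw [IntermediateField.adjoin_le_iff]
    rintro _ rfl
    exact (Fermat.Agent.H23.jBar N).2
  have hmul := IntermediateField.relfinrank_mul_relfinrank hJ hle
  have hj : ((Fermat.Agent.H23.jBar (N * q) : ↥(modularFunctionFieldBar (N * q))) :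
      LaurentSeries (AlgebraicClosure ℚ))
      = ((Fermat.Agent.H23.jBar N : ↥(modularFunctionFieldBar N)) :
        LaurentSeries (AlgebraicClosure ℚ)) := rfl
  rw [hj] at h2
  rw [h1, h2] at hmul
  have hi1 : Nat.card (SL(2, ℤ) ⧸ CongruenceSubgroup.Gamma0 N) = ModularCurve.dedekindPsi N :=
    Fermat.Agent.H57.index_Gamma0 N
  have hi2 : Nat.card (SL(2, ℤ) ⧸ CongruenceSubgroup.Gamma0 (N * q))
      = ModularCurve.dedekindPsi (N * q) :=
    Fermat.Agent.H57.index_Gamma0 (N * q)
  rw [hi1, hi2, Fermat.Agent.H57.dedekindPsi_mul_prime_of_dvd (NeZero.ne N) hq hqN,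
    mul_comm] at hmul
  have hpos : 0 < ModularCurve.dedekindPsi N := by
    rw [← Fermat.Agent.H57.index_Gamma0 N]
    have : (CongruenceSubgroup.Gamma0 N).FiniteIndex := inferInstance
    exact Nat.pos_of_ne_zero (Subgroup.FiniteIndex.index_ne_zero)
  exact Nat.eq_of_mul_eq_mul_right hpos hmul

end Fermat.Agent.H1.SS2

end
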