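import Fermat.Agent.H1.SS2.DegK1
import Fermat.Agent.H86.SS2.Emb3Defs
import Fermat.Agent.H62.SS.AtkinLehnerModel

/-!
# P-SS2 (E1) DEG3 (helper1): the degree along `β` from `W_{q²}`

If `W (α g) = β (W_q g)` for automorphisms `W` of level `L q` and `W_q` of level `L`, then the
degrees along `α` and along `β` agree.  With helper86's `AL2ExistsStatement` (row 1040) this gives
`ModelDeg3Statement (M' q) q`, in particular the two degree hypotheses of
`Fermat.Agent.H11.SS2.Val3AbsStatement`.
-/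

set_option autoImplicit false
set_option linter.style.haveILetI false

noncomputable section

namespace Fermat.Agent.H1.SS2

open AlgebraicCurve ModularCurve IntermediateField
open Fermat.Agent.H22.KL Fermat.Agent.H82.SS Fermat.Agent.H86.SS2

/-- Transport of the degree along an intertwining pair of automorphisms. -/
theorem finrankAlong_eq_of_intertwine {K F E : Type} [Field K] [Field F] [Field E]
    [Algebra K F] [Algebra K E] (α β : F →ₐ[K] E) (w : F ≃ₐ[K] F) (W : E ≃ₐ[K] E)
    (hW : ∀ g, W (α g) = β (w g)) (hfin : FiniteAlong K α) :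
    FiniteAlong K β ∧ finrankAlong K β = finrankAlong K α := by
  have hc : (β.toRingHom).comp (w.toRingEquiv : F ≃+* F).toRingHom
      = (W.toRingEquiv : E ≃+* E).toRingHom.comp α.toRingHom := by
    ext g
    exact (hW g).symm
  constructor
  · exact @Module.Finite.of_equiv_equiv F E F E _ _ _ _ (algebraAlong α) (algebraAlong β)
      w.toRingEquiv W.toRingEquiv hc hfin
  · exact (@Algebra.finrank_eq_of_equiv_equiv F E _ _ (algebraAlong α) F E _ _ (algebraAlong β)
      w.toRingEquiv W.toRingEquiv hc).symm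

/-- **(E1) DEG3 from `W_{q²}`.** -/
theorem modelDeg3_of_isAL2 (M' q : ℕ) [NeZero M'] [NeZero q] (hq : q.Prime)
    (K₁ : Type) [Field K₁] [Algebra ℚ K₁] [FiniteDimensional ℚ K₁]
    (Wq : ModelField K₁ (M' * q) ≃ₐ[K₁] ModelField K₁ (M' * q))
    (W : ModelField K₁ (M' * q * q) ≃ₐ[K₁] ModelField K₁ (M' * q * q))
    (hW : IsAL2 K₁ M' q Wq W) :
    (FiniteAlong K₁ (heckeAlphaBar K₁ (M' * q) q) ∧
        finrankAlong K₁ (heckeAlphaBar K₁ (M' * q) q) = q) ∧
      (FiniteAlong K₁ (heckeBetaBar K₁ (M' * q) q) ∧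
        finrankAlong K₁ (heckeBetaBar K₁ (M' * q) q) = q) := by
  have hα := modelDeg3_alpha (M' * q) q hq (dvd_mul_left q M') K₁
  obtain ⟨h1, h2⟩ := finrankAlong_eq_of_intertwine (heckeAlphaBar K₁ (M' * q) q)
    (heckeBetaBar K₁ (M' * q) q) Wq W hW.alpha hα.1
  exact ⟨hα, h1, h2.trans hα.2⟩

/-- **(E1) DEG3** from helper86's sub-row AL2 (row 1040). -/
theorem modelDeg3_of_al2 (M' q : ℕ) [NeZero M'] [NeZero q] (hq : q.Prime)
    (hcop : Nat.Coprime M' q) (hAL : AL2ExistsStatement M' q) :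
    ModelDeg3Statement (M' * q) q := by
  intro K₁ _ _ _
  obtain ⟨Wq, hWq⟩ := Fermat.Agent.H62.SS.modelAtkinLehnerExists M' q hcop K₁
  obtain ⟨W, hW⟩ := hAL hcop K₁ Wq hWq
  exact modelDeg3_of_isAL2 M' q hq K₁ Wq W hW

/-- The degree along `β` in the form used by `Fermat.Agent.H11.SS2.Val3AbsStatement`. -/
theorem modelDeg3_beta' (M' q : ℕ) [NeZero M'] [NeZero q] (hq : q.Prime)
    (hcop : Nat.Coprime M' q) (hAL : AL2ExistsStatement M' q)
    (K₁ : Type) [Field K₁] [Algebra ℚ K₁] [FiniteDimensional ℚ K₁] :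
    @FiniteDimensional (ModelField K₁ (M' * q)) (ModelField K₁ (M' * q * q)) _ _
        (@Algebra.toModule (ModelField K₁ (M' * q)) (ModelField K₁ (M' * q * q)) _ _
          (heckeBetaBar K₁ (M' * q) q :
            ModelField K₁ (M' * q) →+* ModelField K₁ (M' * q * q)).toAlgebra) ∧
      @Module.finrank (ModelField K₁ (M' * q)) (ModelField K₁ (M' * q * q)) _ _
        (@Algebra.toModule (ModelField K₁ (M' * q)) (ModelField K₁ (M' * q * q)) _ _
          (heckeBetaBar K₁ (M' * q) q :
            ModelField K₁ (M' * q) →+* ModelField K₁ (M' * q * q)).toAlgebra) = q :=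
  (modelDeg3_of_al2 M' q hq hcop hAL K₁).2

end Fermat.Agent.H1.SS2

end
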