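import Fermat.Agent.H77.ES1Deg.Descent
import Fermat.Agent.H65.EsC.DegreeAlpha

/-!
# P-SS2 (E1), part (I) (helper1): relative degrees do not change under `K → L`

For fields `ι : K → L` of characteristic zero and level fields `F₀ ≤ F₁ ⊆ ℚ((q))`:
`[L · F₁ : L · F₀] ≤ [K · F₁ : K · F₀]` (a basis over `K · F₀` spans over `L · F₀`; Mathlib's
`IntermediateField.adjoin_rank_le_of_isAlgebraic_right`), hence equality with helper77's
`es1d_finrankAlong_le`.
-/

set_option autoImplicit false
set_option linter.style.haveILetI false

noncomputable section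

namespace Fermat.Agent.H1.SS2

open ModularCurve IntermediateField AlgebraicCurve

section Descent

variable {K L : Type} [Field K] [Field L] [Algebra ℚ K] [Algebra ℚ L] (ι : K →+* L)

include ι in
/-- **Ascent of relative degrees.**  If `K · F₁` is finite over `K · F₀`, then `L · F₁` is finite
over `L · F₀`, of degree at most `[K · F₁ : K · F₀]`. -/
theorem finrankAlong_ascent_le (F₀ F₁ : IntermediateField ℚ (LaurentSeries ℚ))
    (hK : laurentBaseChange K F₀ ≤ laurentBaseChange K F₁)
    (hL : laurentBaseChange L F₀ ≤ laurentBaseChange L F₁)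
    (hfin : FiniteAlong K (IntermediateField.inclusion hK)) :
    FiniteAlong L (IntermediateField.inclusion hL) ∧
      finrankAlong L (IntermediateField.inclusion hL)
        ≤ finrankAlong K (IntermediateField.inclusion hK) := by
  classical
  -- the base change of the small field
  let φ₀ : ↥(laurentBaseChange K F₀) →+* ↥(laurentBaseChange L F₀) :=
    { toFun := fun x => ⟨coeffMap ι (x : LaurentSeries K),
        Fermat.Agent.H77.es1d_coeffMap_mem ι x.2⟩
      map_one' := Subtype.ext (map_one (coeffMap ι))
      map_mul' := fun x y => Subtype.ext (map_mul (coeffMap ι) (x : LaurentSeries K) y)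
      map_zero' := Subtype.ext (map_zero (coeffMap ι))
      map_add' := fun x y => Subtype.ext (map_add (coeffMap ι) (x : LaurentSeries K) y) }
  letI algFE : Algebra ↥(laurentBaseChange K F₀) ↥(laurentBaseChange L F₀) := φ₀.toAlgebra
  letI algFΩ : Algebra ↥(laurentBaseChange K F₀) (LaurentSeries L) :=
    ((algebraMap ↥(laurentBaseChange L F₀) (LaurentSeries L)).comp φ₀).toAlgebra
  haveI tower : IsScalarTower ↥(laurentBaseChange K F₀) ↥(laurentBaseChange L F₀)
      (LaurentSeries L) := IsScalarTower.of_algebraMap_eq (fun x => rfl)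
  letI algFB : Algebra ↥(laurentBaseChange K F₀) ↥(laurentBaseChange K F₁) :=
    algebraAlong (IntermediateField.inclusion hK)
  haveI hfinB : Module.Finite ↥(laurentBaseChange K F₀) ↥(laurentBaseChange K F₁) := hfin
  -- the base change of the big field, as a homomorphism over the small field
  let ψ : ↥(laurentBaseChange K F₁) →ₐ[↥(laurentBaseChange K F₀)] LaurentSeries L :=
    { toFun := fun y => coeffMap ι (y : LaurentSeries K)
      map_one' := map_one (coeffMap ι)
      map_mul' := fun x y => map_mul (coeffMap ι) (x : LaurentSeries K) y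
      map_zero' := map_zero (coeffMap ι)
      map_add' := fun x y => map_add (coeffMap ι) (x : LaurentSeries K) y
      commutes' := fun a => rfl }
  have hrank : Module.rank ↥(laurentBaseChange K F₀) ↥ψ.fieldRange
      = Module.rank ↥(laurentBaseChange K F₀) ↥(laurentBaseChange K F₁) :=
    (AlgEquiv.ofInjectiveField ψ).toLinearEquiv.rank_eq.symm
  haveI : Module.Finite ↥(laurentBaseChange K F₀) ↥ψ.fieldRange :=
    Module.Finite.equiv (AlgEquiv.ofInjectiveField ψ).toLinearEquiv
  haveI : Algebra.IsAlgebraic ↥(laurentBaseChange K F₀) ↥ψ.fieldRange :=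
    Algebra.IsAlgebraic.of_finite _ _
  have h1 := IntermediateField.adjoin_rank_le_of_isAlgebraic_right
    (F := ↥(laurentBaseChange K F₀)) ↥(laurentBaseChange L F₀) (K := LaurentSeries L)
    ψ.fieldRange
  -- `L · F₁` is contained in the compositum
  have h2 : ∀ x : LaurentSeries L, x ∈ laurentBaseChange L F₁ →
      x ∈ IntermediateField.adjoin ↥(laurentBaseChange L F₀)
        (ψ.fieldRange : Set (LaurentSeries L)) := by
    intro x hx
    rw [mem_laurentBaseChange_iff] at hx
    induction hx using Subfield.closure_induction with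
    | mem y hy =>
        rcases hy with ⟨a, rfl⟩ | ⟨z, hz, rfl⟩
        · have : algebraMap L (LaurentSeries L) a
              = algebraMap ↥(laurentBaseChange L F₀) (LaurentSeries L)
                  (algebraMap L ↥(laurentBaseChange L F₀) a) := rfl
          rw [this]
          exact IntermediateField.algebraMap_mem _ _
        · refine IntermediateField.subset_adjoin _ _ ?_
          refine ⟨⟨coeffEmb K z, coeffEmb_mem_laurentBaseChange K hz⟩, ?_⟩
          exact Fermat.Agent.H77.es1d_coeffMap_coeffEmb ι z
    | one => exact one_mem _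
    | add x y _ _ hx hy => exact add_mem hx hy
    | neg x _ hx => exact neg_mem hx
    | inv x _ hx => exact inv_mem hx
    | mul x y _ _ hx hy => exact mul_mem hx hy
  -- compare the ranks
  letI algL : Algebra ↥(laurentBaseChange L F₀) ↥(laurentBaseChange L F₁) :=
    algebraAlong (IntermediateField.inclusion hL)
  let j : ↥(laurentBaseChange L F₁) →ₗ[↥(laurentBaseChange L F₀)]
      ↥(IntermediateField.adjoin ↥(laurentBaseChange L F₀)
        (ψ.fieldRange : Set (LaurentSeries L))) :=
    { toFun := fun y => ⟨(y : LaurentSeries L), h2 _ y.2⟩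
      map_add' := fun _ _ => rfl
      map_smul' := fun _ _ => rfl }
  have hj : Function.Injective j := by
    intro y y' h
    have h' : (y : LaurentSeries L) = (y' : LaurentSeries L) :=
      congrArg (fun z : ↥(IntermediateField.adjoin ↥(laurentBaseChange L F₀)
        (ψ.fieldRange : Set (LaurentSeries L))) => (z : LaurentSeries L)) h
    exact Subtype.ext h'
  have h3 : Module.rank ↥(laurentBaseChange L F₀) ↥(laurentBaseChange L F₁)
      ≤ Module.rank ↥(laurentBaseChange K F₀) ↥(laurentBaseChange K F₁) :=
    (LinearMap.rank_le_of_injective j hj).trans (h1.trans hrank.le)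
  have h4 : Module.rank ↥(laurentBaseChange K F₀) ↥(laurentBaseChange K F₁) < Cardinal.aleph0 :=
    Module.rank_lt_aleph0 _ _
  have h5 : Module.Finite ↥(laurentBaseChange L F₀) ↥(laurentBaseChange L F₁) :=
    Module.rank_lt_aleph0_iff.mp (lt_of_le_of_lt h3 h4)
  refine ⟨h5, ?_⟩
  show Module.finrank ↥(laurentBaseChange L F₀) ↥(laurentBaseChange L F₁)
    ≤ Module.finrank ↥(laurentBaseChange K F₀) ↥(laurentBaseChange K F₁)
  exact Cardinal.toNat_le_toNat h3 h4

include ι in
/-- **Invariance of relative degrees** under `K → L`. -/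
theorem finrankAlong_descent_eq (F₀ F₁ : IntermediateField ℚ (LaurentSeries ℚ))
    (hK : laurentBaseChange K F₀ ≤ laurentBaseChange K F₁)
    (hL : laurentBaseChange L F₀ ≤ laurentBaseChange L F₁)
    (hfin : FiniteAlong L (IntermediateField.inclusion hL)) :
    FiniteAlong K (IntermediateField.inclusion hK) ∧
      finrankAlong K (IntermediateField.inclusion hK)
        = finrankAlong L (IntermediateField.inclusion hL) := by
  obtain ⟨h1, h2⟩ := Fermat.Agent.H77.es1d_finrankAlong_le ι F₀ F₁ hK hL hfin
  obtain ⟨-, h3⟩ := finrankAlong_ascent_le ι F₀ F₁ hK hL h1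
  exact ⟨h1, le_antisymm h2 h3⟩

end Descent

end Fermat.Agent.H1.SS2

end
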