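import Fermat.Agent.H1.SS2.DegDescent
import Fermat.Agent.H1.SS2.DegAlpha
import Fermat.Agent.H1.SS2.Deg3Defs

/-!
# P-SS2 (E1) DEG3, part (IV) (helper1): the degree along `α` over a number field

`[F_{N q}(K₁) : α F_N(K₁)] = q` for a prime `q ∣ N` and every number field `K₁`
(`finrankAlong_heckeAlphaBar_of_dvd` over `ℚ̄` + invariance of relative degrees).
-/

set_option autoImplicit false
set_option linter.style.haveILetI false

noncomputable section

namespace Fermat.Agent.H1.SS2

open AlgebraicCurve ModularCurve IntermediateField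
open Fermat.Agent.H22.KL

/-- **(E1), `α`.**  `[F_{N q}(K₁) : α F_N(K₁)] = q` for a prime `q ∣ N`, over every number field. -/
theorem modelDeg3_alpha (N q : ℕ) [NeZero N] [NeZero q] (hq : q.Prime) (hqN : q ∣ N)
    (K₁ : Type) [Field K₁] [Algebra ℚ K₁] [FiniteDimensional ℚ K₁] :
    FiniteAlong K₁ (heckeAlphaBar K₁ N q) ∧ finrankAlong K₁ (heckeAlphaBar K₁ N q) = q := by
  haveI : Algebra.IsAlgebraic ℚ K₁ := Algebra.IsAlgebraic.of_finite _ _
  let ι : K₁ →+* AlgebraicClosure ℚ :=
    (IsAlgClosed.lift : K₁ →ₐ[ℚ] AlgebraicClosure ℚ).toRingHom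
  have hK : laurentBaseChange K₁ (modularFunctionFieldFull N)
      ≤ laurentBaseChange K₁ (modularFunctionFieldFull (N * q)) := by
    intro x hx
    exact (heckeAlphaBar K₁ N q ⟨x, hx⟩).2
  have hL : laurentBaseChange (AlgebraicClosure ℚ) (modularFunctionFieldFull N)
      ≤ laurentBaseChange (AlgebraicClosure ℚ) (modularFunctionFieldFull (N * q)) := by
    intro x hx
    exact (heckeAlphaBar (AlgebraicClosure ℚ) N q ⟨x, hx⟩).2
  have hαL : heckeAlphaBar (AlgebraicClosure ℚ) N q = IntermediateField.inclusion hL := rfl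
  have hαK : heckeAlphaBar K₁ N q = IntermediateField.inclusion hK := rfl
  have hdeg := finrankAlong_heckeAlphaBar_of_dvd N q hq hqN
  rw [hαL] at hdeg
  have hfin : FiniteAlong (AlgebraicClosure ℚ) (IntermediateField.inclusion hL) := by
    letI := algebraAlong (IntermediateField.inclusion hL)
    have hpos : 0 < Module.finrank
        ↥(laurentBaseChange (AlgebraicClosure ℚ) (modularFunctionFieldFull N))
        ↥(laurentBaseChange (AlgebraicClosure ℚ) (modularFunctionFieldFull (N * q))) := by
      have : Module.finrank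
          ↥(laurentBaseChange (AlgebraicClosure ℚ) (modularFunctionFieldFull N))
          ↥(laurentBaseChange (AlgebraicClosure ℚ) (modularFunctionFieldFull (N * q))) = q :=
        hdeg
      rw [this]
      exact hq.pos
    exact Module.finite_of_finrank_pos hpos
  obtain ⟨h1, h2⟩ := finrankAlong_descent_eq ι _ _ hK hL hfin
  rw [hαK]
  exact ⟨h1, h2.trans hdeg⟩

/-- The same in the form used by `Fermat.Agent.H11.SS2.Val3AbsStatement`. -/
theorem modelDeg3_alpha' (N q : ℕ) [NeZero N] [NeZero q] (hq : q.Prime) (hqN : q ∣ N)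
    (K₁ : Type) [Field K₁] [Algebra ℚ K₁] [FiniteDimensional ℚ K₁] :
    @FiniteDimensional (ModelField K₁ N) (ModelField K₁ (N * q)) _ _
        (@Algebra.toModule (ModelField K₁ N) (ModelField K₁ (N * q)) _ _
          (heckeAlphaBar K₁ N q : ModelField K₁ N →+* ModelField K₁ (N * q)).toAlgebra) ∧
      @Module.finrank (ModelField K₁ N) (ModelField K₁ (N * q)) _ _
        (@Algebra.toModule (ModelField K₁ N) (ModelField K₁ (N * q)) _ _
          (heckeAlphaBar K₁ N q : ModelField K₁ N →+* ModelField K₁ (N * q)).toAlgebra) = q :=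
  modelDeg3_alpha N q hq hqN K₁

end Fermat.Agent.H1.SS2

end
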