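import Fermat.Agent.H1.SS2.Gen3
import Fermat.Agent.H79.SS2.AL2

/-!
# P-SS2 (E1) DEG3 + GEN3 (row 1060, helper1): the unconditional statement

`modelE1 M' q : ModelE1Statement M' q` : for a prime `q ∤ M'`, over every number field `K₁`, both
degeneracy maps `α, β : ModelField K₁ (M' q) → ModelField K₁ (M' q q)` have degree `q`, and
`E₀ = β(F_L)[α H₀] = α(F_L)[β H₁]`.
-/

set_option autoImplicit false

noncomputable section

namespace Fermat.Agent.H1.SS2

/-- **(E1) DEG3 + GEN3**, unconditional. -/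
theorem modelE1 (M' q : ℕ) [NeZero M'] [NeZero q] [NeZero (M' * q)] : ModelE1Statement M' q :=
  modelE1_of_al2 M' q (Fermat.Agent.H79.SS2.al2Exists M' q)

/-- **(E1) DEG3**, unconditional. -/
theorem modelDeg3 (M' q : ℕ) [NeZero M'] [NeZero q] (hq : q.Prime) (hcop : Nat.Coprime M' q) :
    ModelDeg3Statement (M' * q) q :=
  modelDeg3_of_al2 M' q hq hcop (Fermat.Agent.H79.SS2.al2Exists M' q)

end Fermat.Agent.H1.SS2

end
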