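import Fermat.Agent.H1.SS2.DegBeta

/-!
# P-SS2 (E1) GEN3 (helper1): generation of the model field of level `M' q²` over level `M' q`

The degree along `α` and along `β` is the prime `q`, so every element outside the image
generates.  `α H₀ ∉ β F_L` since the elements of `β F_L` are series in `t ^ q`; `β H₁ ∉ α F_L`
by transport with `W_{q²}`.
-/

set_option autoImplicit false
set_option linter.style.haveILetI false

noncomputable section

namespace Fermat.Agent.H1.SS2

open AlgebraicCurve ModularCurve IntermediateField Polynomial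
open Fermat.Agent.H22.KL Fermat.Agent.H82.SS Fermat.Agent.H86.SS2

/-- In an extension of prime degree `q`, every element outside the base field generates, and
every element is a polynomial of degree `< q` in it. -/
theorem exists_eval₂_of_prime_finrank {F E : Type*} [Field F] [Field E] (a : F →+* E) (q : ℕ)
    (hq : q.Prime)
    (hfin : letI := a.toAlgebra; Module.Finite F E)
    (hdeg : (letI := a.toAlgebra; Module.finrank F E) = q)
    (y : E) (hy : ∀ x : F, a x ≠ y) (z : E) :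
    ∃ p : F[X], p.natDegree < q ∧ z = p.eval₂ a y := by
  letI := a.toAlgebra
  haveI : FiniteDimensional F E := hfin
  have hdeg' : Module.finrank F E = q := hdeg
  haveI : IsSimpleOrder (IntermediateField F E) :=
    IntermediateField.isSimpleOrder_of_finrank_prime F E (hdeg'.symm ▸ hq)
  have htop : F⟮y⟯ = ⊤ := by
    rcases eq_bot_or_eq_top F⟮y⟯ with h | h
    · exfalso
      have hmem : y ∈ (⊥ : IntermediateField F E) := h ▸ mem_adjoin_simple_self F y
      rw [IntermediateField.mem_bot] at hmem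
      obtain ⟨x, hx⟩ := hmem
      exact hy x hx
    · exact h
  have hint : IsIntegral F y := IsIntegral.of_finite F y
  have hz : z ∈ F⟮y⟯ := htop ▸ IntermediateField.mem_top
  have hdim : (IntermediateField.adjoin.powerBasis hint).dim = q := by
    have h1 : Module.finrank F ↥F⟮y⟯ = q := by
      rw [← hdeg', ← IntermediateField.finrank_top' (F := F) (E := E)]
      exact congrArg (fun S : IntermediateField F E => Module.finrank F ↥S) htop
    rw [← h1]
    exact (PowerBasis.finrank (IntermediateField.adjoin.powerBasis hint)).symm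
  obtain ⟨p, hp1, hp2⟩ :=
    (IntermediateField.adjoin.powerBasis hint).exists_eq_aeval (⟨z, hz⟩ : ↥F⟮y⟯)
  refine ⟨p, hdim ▸ hp1, ?_⟩
  have h3 : z = ((aeval (IntermediateField.adjoin.powerBasis hint).gen p : ↥F⟮y⟯) : E) :=
    congrArg (fun w : ↥F⟮y⟯ => (w : E)) hp2
  have h4 : ((aeval (IntermediateField.adjoin.powerBasis hint).gen p : ↥F⟮y⟯) : E)
      = aeval y p := by
    rw [IntermediateField.adjoin.powerBasis_gen, ← IntermediateField.aeval_coe,
      IntermediateField.AdjoinSimple.coe_gen]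
  rw [h3, h4, Polynomial.aeval_def]
  rfl

section Series

/-- `qExpand` commutes with coefficient maps. -/
theorem e1_coeffMap_qExpand {R S : Type*} [CommRing R] [CommRing S] (f : R →+* S) (n : ℕ)
    [NeZero n] (x : LaurentSeries R) : coeffMap f (qExpand R n x) = qExpand S n (coeffMap f x) := by
  ext k
  by_cases hk : (n : ℤ) ∣ k
  · obtain ⟨m, rfl⟩ := hk
    rw [coeffMap_coeff, qExpand_coeff_mul, qExpand_coeff_mul, coeffMap_coeff]
  · rw [coeffMap_coeff, qExpand_coeff_of_not_dvd n _ hk, qExpand_coeff_of_not_dvd n _ hk,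
      map_zero]

/-- A series with a nonzero coefficient at an exponent prime to `q` is not a series in
`t ^ q`. -/
theorem e1_coeffEmb_ne_qExpand (K₁ : Type) [Field K₁] [Algebra ℚ K₁] (q : ℕ) [NeZero q]
    (h₀ : LaurentSeries ℚ) (h : HasCoeffOff q h₀) (s : LaurentSeries K₁) :
    qExpand K₁ q s ≠ coeffEmb K₁ h₀ := by
  obtain ⟨k, hk, hne⟩ := h
  intro heq
  have h1 : (qExpand K₁ q s).coeff k = (coeffEmb K₁ h₀).coeff k := by rw [heq]
  rw [qExpand_coeff_of_not_dvd q _ hk, coeffEmb_coeff] at h1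
  exact hne ((algebraMap ℚ K₁).injective (by rw [← h1, map_zero]))

end Series

/-- **(E1) GEN3, along `β`**, from the degree along `β`. -/
theorem modelGen3Beta_of_deg (L q : ℕ) [NeZero L] [NeZero q] (hq : q.Prime)
    (hdeg : ∀ (K₁ : Type) [Field K₁] [Algebra ℚ K₁] [FiniteDimensional ℚ K₁],
      FiniteAlong K₁ (heckeBetaBar K₁ L q) ∧ finrankAlong K₁ (heckeBetaBar K₁ L q) = q)
    (h₀ : LaurentSeries ℚ) (h : HasCoeffOff q h₀) : ModelGen3BetaStatement L q h₀ := by
  intro K₁ _ _ _ H₀ hH₀ z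
  obtain ⟨hfin, hd⟩ := hdeg K₁
  refine exists_eval₂_of_prime_finrank
    (heckeBetaBar K₁ L q : ModelField K₁ L →+* ModelField K₁ (L * q)) q hq hfin hd
    (heckeAlphaBar K₁ L q H₀) ?_ z
  intro x hx
  have hx' : heckeBetaBar K₁ L q x = heckeAlphaBar K₁ L q H₀ := hx
  have h1 : ((heckeBetaBar K₁ L q x : ModelField K₁ (L * q)) : LaurentSeries K₁)
      = ((heckeAlphaBar K₁ L q H₀ : ModelField K₁ (L * q)) : LaurentSeries K₁) := by
    rw [hx']
  rw [coe_heckeBetaBar, coe_heckeAlphaBar, hH₀] at h1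
  exact e1_coeffEmb_ne_qExpand K₁ q h₀ h _ h1

/-- **(E1) GEN3, along `α`**, from the degree along `α` and `W_{q²}`. -/
theorem modelGen3Alpha_of_isAL2 (M' q : ℕ) [NeZero M'] [NeZero q] (hq : q.Prime)
    (hW : ∀ (K₁ : Type) [Field K₁] [Algebra ℚ K₁] [FiniteDimensional ℚ K₁],
      ∃ (Wq : ModelField K₁ (M' * q) ≃ₐ[K₁] ModelField K₁ (M' * q))
        (W : ModelField K₁ (M' * q * q) ≃ₐ[K₁] ModelField K₁ (M' * q * q)),
        IsAL2 K₁ M' q Wq W)
    (h₀ : LaurentSeries ℚ) (hmem : h₀ ∈ modularFunctionFieldFull M') (h : HasCoeffOff q h₀) :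
    ModelGen3AlphaStatement (M' * q) q h₀ := by
  intro K₁ _ _ _ H₁ hH₁ z
  obtain ⟨Wq, W, hAL⟩ := hW K₁
  obtain ⟨hfin, hd⟩ := modelDeg3_alpha (M' * q) q hq (dvd_mul_left q M') K₁
  refine exists_eval₂_of_prime_finrank
    (heckeAlphaBar K₁ (M' * q) q : ModelField K₁ (M' * q) →+* ModelField K₁ (M' * q * q)) q hq
    hfin hd (heckeBetaBar K₁ (M' * q) q H₁) ?_ z
  intro g hg
  -- the element of level `M'` with expansion `h₀`
  let H₀' : ModelField K₁ M' := ⟨coeffEmb K₁ h₀, coeffEmb_mem_laurentBaseChange K₁ hmem⟩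
  have hH₀' : (H₀' : LaurentSeries K₁) = coeffEmb K₁ h₀ := rfl
  have hH₁' : H₁ = heckeBetaBar K₁ M' q H₀' := by
    apply Subtype.ext
    rw [hH₁, coe_heckeBetaBar, hH₀']
    exact e1_coeffMap_qExpand _ q h₀
  have hWq : Wq H₁ = heckeAlphaBar K₁ M' q H₀' := by
    rw [hH₁']
    exact hAL.al.2 H₀'
  have hg' : heckeAlphaBar K₁ (M' * q) q g = heckeBetaBar K₁ (M' * q) q H₁ := hg
  have h1 : W (heckeAlphaBar K₁ (M' * q) q g) = W (heckeBetaBar K₁ (M' * q) q H₁) := by
    rw [hg']
  rw [hAL.alpha, hAL.beta, hWq] at h1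
  have h2 : ((heckeBetaBar K₁ (M' * q) q (Wq g) : ModelField K₁ (M' * q * q)) :
        LaurentSeries K₁)
      = ((heckeAlphaBar K₁ (M' * q) q (heckeAlphaBar K₁ M' q H₀') :
          ModelField K₁ (M' * q * q)) : LaurentSeries K₁) := by
    rw [h1]
  rw [coe_heckeBetaBar, coe_heckeAlphaBar, coe_heckeAlphaBar, hH₀'] at h2
  exact e1_coeffEmb_ne_qExpand K₁ q h₀ h _ h2

/-- **(E1)** from helper86's sub-row AL2 (row 1040). -/
theorem modelE1_of_al2 (M' q : ℕ) [NeZero M'] [NeZero q] [NeZero (M' * q)]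
    (hAL : AL2ExistsStatement M' q) : ModelE1Statement M' q := by
  intro hq hcop
  have hW : ∀ (K₁ : Type) [Field K₁] [Algebra ℚ K₁] [FiniteDimensional ℚ K₁],
      ∃ (Wq : ModelField K₁ (M' * q) ≃ₐ[K₁] ModelField K₁ (M' * q))
        (W : ModelField K₁ (M' * q * q) ≃ₐ[K₁] ModelField K₁ (M' * q * q)),
        IsAL2 K₁ M' q Wq W := by
    intro K₁ _ _ _
    obtain ⟨Wq, hWq⟩ := Fermat.Agent.H62.SS.modelAtkinLehnerExists M' q hcop K₁
    obtain ⟨W, hW⟩ := hAL hcop K₁ Wq hWq
    exact ⟨Wq, W, hW⟩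
  have hdeg := modelDeg3_of_al2 M' q hq hcop hAL
  refine ⟨hdeg, ?_, ?_⟩
  · intro h₀ h
    exact modelGen3Beta_of_deg (M' * q) q hq (fun K₁ _ _ _ => (hdeg K₁).2) h₀ h
  · intro h₀ hmem h
    exact modelGen3Alpha_of_isAL2 M' q hq hW h₀ hmem h

end Fermat.Agent.H1.SS2

end
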