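import Fermat.Agent.H7.SS2.RegLH4Final

/-!
# P-SS2 (helper1, leaf for helper12 / helper99): REGL in the chart `j`, `4 ∣ M`, `q` odd

`regLChartR_h4 : Fermat.Agent.H7.SS2.RegLChartRStatement M q (h4S ℚ) M`, unconditional
(`Fermat.Agent.H7.SS2.regLChartR_of` with helper7's `smoothGenR_h4` and `nodeGenR_h4`).
-/

set_option autoImplicit false

noncomputable section

namespace Fermat.Agent.H1.SS2

open ModularCurve
open Fermat.Agent.H8.SS Fermat.Agent.H59.SS Fermat.Agent.H7.SS2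

/-- **REGL in the chart `j`, unconditional** (`4 ∣ M`, `q` an odd prime, `q ∤ M`, `R = M`). -/
theorem regLChartR_h4 (M q : ℕ) [NeZero M] [NeZero q] (hq : q.Prime) (hq2 : q ≠ 2)
    (hqM : ¬ q ∣ M) (h4 : 4 ∣ M) : RegLChartRStatement M q (h4S ℚ) M :=
  regLChartR_of M q hq hqM h4Z M (fun K₁ _ _ => h4S_mem_laurentBaseChange K₁ M h4)
    (smoothGenR_h4 M q hq hq2 hqM h4 M) (nodeGenR_h4 M q hq hq2 hqM h4 M)

/-- **REGL in the chart `j`, existential form** (`R > 0`, prime to `q`). -/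
theorem regLChartR_h4_exists (M q : ℕ) [NeZero M] [NeZero q] (hq : q.Prime) (hq2 : q ≠ 2)
    (hqM : ¬ q ∣ M) (h4 : 4 ∣ M) :
    ∃ R : ℕ, 0 < R ∧ Nat.Coprime R q ∧ RegLChartRStatement M q (h4S ℚ) R :=
  ⟨M, Nat.pos_of_ne_zero (NeZero.ne M), ((Nat.Prime.coprime_iff_not_dvd hq).2 hqM).symm,
    regLChartR_h4 M q hq hq2 hqM h4⟩

end Fermat.Agent.H1.SS2

end
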